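import Mathlib
import Fermat.Agent.S18.H383.FF1Modular
import Fermat.Agent.S18.H665.StepA

/-!
# S18 / NODE T3 (`node_constFk` of `Integ/Skeleton.lean`), helper383

Exact frozen shape of the node:

    theorem node_constFk (N : ℕ) [NeZero N] {ℓ : ℕ} [Fact ℓ.Prime] (hℓN : ¬ ℓ ∣ N)
        (A : ValuationSubring (AlgebraicClosure ℚ)) (hA : A.LiesOverPrime ℓ) :
        Fermat.Agent.S18.H665.ConstLemma N A

(`H665.ConstLemma N A` unfolds to `Sq05.ConstStatement (A/𝔪) (modularFunctionFieldFullC (A/𝔪) N)`,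
which is `t3Statement` of `FF1Modular.lean`.)
-/

set_option autoImplicit false

namespace Fermat.Agent.S18.H383

/-- NODE T3 (CONST_Fk): a function on the special fibre without zeros and poles is constant. -/
theorem node_constFk (N : ℕ) [NeZero N] {ℓ : ℕ} [Fact ℓ.Prime] (hℓN : ¬ ℓ ∣ N)
    (A : ValuationSubring (AlgebraicClosure ℚ)) (hA : A.LiesOverPrime ℓ) :
    Fermat.Agent.S18.H665.ConstLemma N A :=
  t3Statement N ℓ Fact.out hℓN A hA

end Fermat.Agent.S18.H383
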